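import Fermat.Agent.LA3b.Ord

/-!
# S39/S40, block A2: the statement for places downstairs
-/

set_option autoImplicit false
set_option linter.unusedSectionVars false
set_option linter.style.haveILetI false
set_option maxHeartbeats 400000

noncomputable section

open AlgebraicCurve Module IntermediateField ModularCurve HahnSeries

attribute [-instance] Fermat.Agent.X0Places.ffField Fermat.Agent.X0Places.ffAlgebra

namespace Fermat.Agent.LA3b

open Fermat.Agent.BadRed Fermat.Agent.LLp Fermat.Agent.LLu Fermat.Agent.LLc Fermat.Agent.LLv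
open Fermat.Agent.FunField Fermat.Agent.FunField.PlaceLemmas Fermat.Agent.Deuring
open Fermat.Agent.Igusa Fermat.Agent.AtkinLehner Fermat.Agent.HeckeRed

section Gen

variable {K F F' : Type*} [Field K] [IsAlgClosed K] [Field F] [Field F'] [Algebra K F]
  [Algebra K F'] [IsFF K F] [IsFF K F']

/-- places lift -/
theorem exists_res_eq (φ : F →ₐ[K] F') (v : Place K F) : ∃ w, Degen.res φ w = v := by
  letI := algebraAlong φ
  haveI := isScalarTower_along φ
  haveI : Module.Finite F F' := finiteAlong_of_isFF φ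
  obtain ⟨w, hw⟩ := Fermat.Agent.FunField.exists_restrict_eq (F' := F') v
  exact ⟨w, hw⟩

end Gen

section

variable {κ : Type*} [Field κ] [IsAlgClosed κ]
  (A : ValuationSubring (AlgebraicClosure ℚ)) (π : A →+* κ) [IsLocalHom π]
  (hπ : Function.Surjective π) (harch : ArchA π)
  (M : ℕ) [hp : Fact (Nat.Prime 3)] [hM : NeZero M] [CharP κ 3] (hpM : ¬ 3 ∣ M)
  (hg : genusFF κ (modularFunctionFieldFullC κ M) =
    genusFF (AlgebraicClosure ℚ) (modularFunctionFieldFullC (AlgebraicClosure ℚ) M))
  (d : CP.DecAut A π) (hd : CP.IsFrob d 3)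

include hπ harch hpM hg hd in
/-- **A2** for a place of the smaller field -/
theorem not_three_dvd_ord_j' (ι : AlgebraicClosure ℚ →+* ℂ) (hA : A.LiesOverPrime 3)
    {N : ℕ} [NeZero N]
    (φ : modularFunctionFieldFullC κ N →ₐ[κ] modularFunctionFieldFullC κ M)
    (hφ : ∀ x, ((φ x : modularFunctionFieldFullC κ M) : LaurentSeries κ) = x)
    (v : Place κ (modularFunctionFieldFullC κ N))
    (h3 : ∀ w : Place κ (modularFunctionFieldFullC κ M), Degen.res φ w = v →
      3 ∣ Place.ramificationIndexAlong φ w)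
    (hj : 0 < v.ord (HeckeRed.jF κ N)) : ¬ (3 : ℤ) ∣ v.ord (HeckeRed.jF κ N) := by
  obtain ⟨w, rfl⟩ := exists_res_eq φ v
  exact not_three_dvd_ord_j A π hπ harch M hpM hg d hd ι hA φ hφ w (h3 w rfl) hj

end

end Fermat.Agent.LA3b
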