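import Fermat.Agent.MzCusp.DeltaQuot
import Fermat.Agent.BadRed.FrobLaurent
import Fermat.Agent.ModPoly.Formal

/-!
# S39/S40, block A2: in characteristic 3 the modular unit `Δ(q)/Δ(q^3)` is `j ^ 2`
-/

set_option autoImplicit false

noncomputable section

open HahnSeries ModularCurve

namespace Fermat.Agent.LA3b

open Fermat.Agent.MzCusp Fermat.Agent.BadRed

theorem map_eisenstein4 (κ : Type*) [CommRing κ] [CharP κ 3] :
    eisenstein4.map (Int.castRingHom κ) = 1 := by
  ext n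
  rw [PowerSeries.coeff_map, eisenstein4, PowerSeries.coeff_mk, PowerSeries.coeff_one]
  split_ifs with h
  · simp
  · have h3 : ((240 : ℤ) : κ) = 0 := by
      rw [CharP.intCast_eq_zero_iff κ 3]
      norm_num
    rw [eq_intCast, Int.cast_mul, h3, zero_mul]

theorem jqModC_eq_inv (κ : Type*) [CommRing κ] [CharP κ 3] : jqModC κ = deltaInvL κ := by
  rw [jqModC, jNum, map_mul, map_pow, map_eisenstein4, one_pow, one_mul, deltaInvL]

theorem qExpand_deltaInvL (κ : Type*) [Field κ] (p : ℕ) [hp : Fact p.Prime] [CharP κ p] :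
    qExpand κ p (deltaInvL κ) = deltaInvL κ ^ p :=
  qExpand_eq_pow κ p (deltaInvL ℤ) (coeffMap_deltaInvL _).symm

/-- `Δ(q)/Δ(q^3) = j^2` in characteristic `3` -/
theorem uL_three_eq (κ : Type*) [Field κ] [Fact (Nat.Prime 3)] [CharP κ 3] :
    uL κ 3 = (jqModC κ) ^ 2 := by
  rw [uL, qExpand_deltaInvL, jqModC_eq_inv]
  calc deltaL κ * deltaInvL κ ^ 3 = (deltaL κ * deltaInvL κ) * deltaInvL κ ^ 2 := by ring
    _ = deltaInvL κ ^ 2 := by rw [deltaL_mul_inv, one_mul]

end Fermat.Agent.LA3b
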