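import Fermat.Agent.LA3b.Ex
import Fermat.Agent.LD8.Main

/-!
# S39/S40, block A: assembly
-/

set_option autoImplicit false
set_option linter.unusedSectionVars false
set_option maxHeartbeats 400000

noncomputable section

open AlgebraicCurve Module IntermediateField ModularCurve HahnSeries

attribute [-instance] Fermat.Agent.X0Places.ffField Fermat.Agent.X0Places.ffAlgebra

namespace Fermat.Agent.LA3b

open Fermat.Agent.BadRed Fermat.Agent.LLp Fermat.Agent.LLu Fermat.Agent.LLc Fermat.Agent.LLv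
open Fermat.Agent.FunField Fermat.Agent.FunField.PlaceLemmas Fermat.Agent.Deuring
open Fermat.Agent.Igusa Fermat.Agent.AtkinLehner Fermat.Agent.HeckeRed

variable {κ : Type*} [Field κ] [IsAlgClosed κ]
  (A : ValuationSubring (AlgebraicClosure ℚ)) (π : A →+* κ) [IsLocalHom π]
  (hπ : Function.Surjective π) (harch : ArchA π)
  (N : ℕ) [hp : Fact (Nat.Prime 3)] [hN : NeZero N] [CharP κ 3] (h3N : ¬ 3 ∣ N)
  (hg : genusFF κ (modularFunctionFieldFullC κ (N * 4)) =
    genusFF (AlgebraicClosure ℚ) (modularFunctionFieldFullC (AlgebraicClosure ℚ) (N * 4)))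
  (d : CP.DecAut A π) (hd : CP.IsFrob d 3)

/-- the statement A1 -/
def HypA1 (κ : Type*) [Field κ] [IsAlgClosed κ] (N : ℕ) [NeZero N] : Prop :=
  ∀ φ : modularFunctionFieldFullC κ N →ₐ[κ] modularFunctionFieldFullC κ (N * 4),
    (∀ x, (φ x : LaurentSeries κ) = x) → ∀ v : Place κ (modularFunctionFieldFullC κ N),
    (∀ w : Place κ (modularFunctionFieldFullC κ (N * 4)), Degen.res φ w = v →
      3 ∣ Place.ramificationIndexAlong φ w) → 0 < v.ord (HeckeRed.jF κ N)

include hπ harch h3N hg hd in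
/-- **[A]** from A1 -/
theorem hypA_of (ι : AlgebraicClosure ℚ →+* ℂ) (hA : A.LiesOverPrime 3) (h1 : HypA1 κ N) :
    LD8.HypA κ N := by
  intro φ hφ v hv
  have i4 : NeZero (N * 4) := ⟨mul_ne_zero hN.out (by norm_num)⟩
  have h3 : ¬ 3 ∣ N * 4 := by
    intro h
    rcases (Nat.Prime.dvd_mul Nat.prime_three).1 h with h | h
    · exact h3N h
    · omega
  exact ⟨h1 φ hφ v hv, not_three_dvd_ord_j' A π hπ harch (N * 4) h3 hg d hd ι hA φ hφ v hv
    (h1 φ hφ v hv)⟩

end Fermat.Agent.LA3b
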