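import Fermat.Agent.LA3b.UL
import Fermat.Agent.LLv.Core

/-!
# S39/S40, block A2: the order of `j` at the supersingular places in characteristic 3
-/

set_option autoImplicit false
set_option linter.unusedSectionVars false
set_option maxHeartbeats 400000

noncomputable section

open AlgebraicCurve Module IntermediateField ModularCurve HahnSeries

attribute [-instance] Fermat.Agent.X0Places.ffField Fermat.Agent.X0Places.ffAlgebra

namespace Fermat.Agent.LA3b

open Fermat.Agent.BadRed Fermat.Agent.LLp Fermat.Agent.LLu Fermat.Agent.LLc Fermat.Agent.LLv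
open Fermat.Agent.FunField Fermat.Agent.FunField.PlaceLemmas Fermat.Agent.Deuring
open Fermat.Agent.Igusa Fermat.Agent.AtkinLehner Fermat.Agent.HeckeRed
open Fermat.Agent.MzCusp (uL uL_ne_zero)

section

variable {κ : Type*} [Field κ] [IsAlgClosed κ]
  (A : ValuationSubring (AlgebraicClosure ℚ)) (π : A →+* κ) [IsLocalHom π]
  (hπ : Function.Surjective π) (harch : ArchA π)
  (M : ℕ) [hp : Fact (Nat.Prime 3)] [hM : NeZero M] [CharP κ 3] (hpM : ¬ 3 ∣ M)
  (hg : genusFF κ (modularFunctionFieldFullC κ M) =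
    genusFF (AlgebraicClosure ℚ) (modularFunctionFieldFullC (AlgebraicClosure ℚ) M))
  (d : CP.DecAut A π) (hd : CP.IsFrob d 3)

theorem coe_jF_sq : (((HeckeRed.jF κ M) ^ 2 : modularFunctionFieldFullC κ M) : LaurentSeries κ) =
    uL κ 3 := by
  rw [uL_three_eq]
  rfl

include hπ harch hpM hg hd in
/-- **A2**: `ord j ≤ 6` at the affine places in characteristic `3` -/
theorem ord_j_le_six (ι : AlgebraicClosure ℚ →+* ℂ) (hA : A.LiesOverPrime 3)
    (w : Place κ (modularFunctionFieldFullC κ M)) :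
    w.ord (HeckeRed.jF κ M) ≤ 6 := by
  by_contra hcon
  push Not at hcon
  have i0 : NeZero (M * 3) := ⟨mul_ne_zero (NeZero.ne M) hp.out.ne_zero⟩
  have H := CP.pen_hyp A π hπ harch M 3 hpM hg d hd
  set P := CP.pen A π hπ harch M 3 hpM hg d hd with hP
  obtain ⟨hfin, -, -⟩ := P.structure_fibre H.hRR H.hRR₁ H.hpos
  have i3 := Fintype.ofFinite P.Pt
  choose pl₁ hpl₁ using fun x : P.Pt => exists_at (p := P.toPencil) H.hpos (P.frPt x)
  have hub : (((HeckeRed.jF κ M) ^ 2 : modularFunctionFieldFullC κ M) : LaurentSeries κ) =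
    uL κ 3 := coe_jF_sq M
  have h2 : w.ord ((HeckeRed.jF κ M) ^ 2) = 2 * w.ord (HeckeRed.jF κ M) := by
    rw [ord_pow]
    push_cast
    ring
  by_cases hne : ∀ x, pl₁ x ≠ w
  · have := ord_ub_eq_zero A π hπ harch M 3 hpM hg d hd ι _ hub hpl₁ w (by omega) hne
    rw [h2] at this
    omega
  · push Not at hne
    obtain ⟨x, rfl⟩ := hne
    have h3 := (LLn.node_order_qbar ι A π hπ harch M 3 hpM hA hg d hd _ hub x).1 _ (hpl₁ x)
    rw [h2] at h3
    omega

include hπ harch hpM hg hd in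
/-- **A2** -/
theorem not_three_dvd_ord_j (ι : AlgebraicClosure ℚ →+* ℂ) (hA : A.LiesOverPrime 3)
    {N : ℕ} [NeZero N]
    (φ : modularFunctionFieldFullC κ N →ₐ[κ] modularFunctionFieldFullC κ M)
    (hφ : ∀ x, ((φ x : modularFunctionFieldFullC κ M) : LaurentSeries κ) = x)
    (w : Place κ (modularFunctionFieldFullC κ M)) (h3 : 3 ∣ Place.ramificationIndexAlong φ w)
    (hj : 0 < (Degen.res φ w).ord (HeckeRed.jF κ N)) :
    ¬ (3 : ℤ) ∣ (Degen.res φ w).ord (HeckeRed.jF κ N) := by
  have h1 := ord_j_le_six A π hπ harch M hpM hg d hd ι hA w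
  have hφj : φ (HeckeRed.jF κ N) = HeckeRed.jF κ M := Subtype.ext (hφ _)
  rw [← hφj, Degen.ord_res] at h1
  obtain ⟨e, he⟩ := h3
  have hpos := Degen.ramificationIndexAlong_pos φ w
  rw [he] at h1 hpos
  have he1 : (1 : ℤ) ≤ e := by
    have : 0 < e := by omega
    exact_mod_cast this
  rintro ⟨m, hm⟩
  rw [hm] at h1 hj
  have hm1 : (1 : ℤ) ≤ m := by omega
  push_cast at h1
  nlinarith

end

end Fermat.Agent.LA3b
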